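import Fermat.Agent.WeightOneGalois.Interface
import Fermat.Agent.X0.Counts

/-!
# The curve of a group without elliptic elements

`CurveData` adds `2 ≤ |tr|` to the function field `X0.CurveField` of the curve of `Γ ⊇ Γ(W)`: the
stabilisers of points then act freely on cosets, so the index over the `j`-line at a point depends
only on the value of `j`.  Monodromy is `Mono/Monodromy` for this curve; the extra hypothesis
is used in `Genus/Unramified`.
-/

noncomputable section

namespace Fermat.Agent.WeightOneGalois.Curve

open CongruenceSubgroup Function AlgebraicCurve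
open UpperHalfPlane hiding I
open scoped MatrixGroups IntermediateField

/-- `F` is the function field of the curve of `Γ ⊇ Γ(W)`, a group without elliptic elements. -/
structure CurveData (Γ : Subgroup SL(2, ℤ)) (W : ℕ)
    (F : IntermediateField ℂ (LaurentSeries ℂ)) : Prop extends X0.CurveField Γ W F where
  two_le_tr : ∀ γ ∈ Γ, 2 ≤ |Grp.tr γ|

variable {Γ : Subgroup SL(2, ℤ)} {W : ℕ} {F : IntermediateField ℂ (LaurentSeries ℂ)}

/-- Over a finite value of `j` the index over the `j`-line is that of a point with this value. -/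
theorem CurveData.exists_point_place [NeZero W] (D : CurveData Γ W F) (a : ℂ) (v : Place ℂ F)
    (hv : 0 < v.ord (D.jEl - algebraMap ℂ F a)) :
    ∃ τ : ℍ, X0.jFun τ = a ∧ v.ord (D.jEl - algebraMap ℂ F a) = X0.ellOrder τ := by
  have := D.finiteIndex
  obtain ⟨τ, R, hτ, hR, hζ, hpow, htr⟩ := X0.exists_base_point a
  obtain ⟨pl, -, h2, h3⟩ := D.exists_places_point hτ hR hζ
  obtain ⟨o, rfl⟩ := (h2 v).mp hv
  induction o using Quotient.inductionOn with
  | h q =>
    refine ⟨τ, hτ, ?_⟩
    rw [(h3 q).1, X0.natCard_orbit_zpowers]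
    have hper : IsPeriodicPt (R • ·) (X0.ellOrder τ) q := by
      show (R • ·)^[X0.ellOrder τ] q = q
      rw [smul_iterate]
      exact D.pow_ellOrder_smul hpow q
    refine congrArg Nat.cast (le_antisymm (hper.minimalPeriod_le (X0.one_le_ellOrder τ))
      (not_lt.mp fun hlt => ?_))
    have h1 := D.two_le_tr _ (X0.conj_mem_of_smul_eq (X0.pow_minimalPeriod_smul R q))
    rw [Grp.tr_conj] at h1
    have h4 := htr _ (hper.minimalPeriod_pos (X0.one_le_ellOrder τ)) hlt
    omega

end Fermat.Agent.WeightOneGalois.Curve
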