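import Mathlib.FieldTheory.Relrank
import Fermat.Agent.Mono.BaseChange
import Fermat.Agent.Mono.PlaceData
import Fermat.Agent.WeightOneGalois.Hecke.Gens
import Fermat.Agent.WeightOneGalois.Interface
import Fermat.Agent.WeightOneGalois.Monodromy.Field
import Fermat.Agent.WeightOneGalois.Period.Level

/-!
# The curve of `GT M`, for `4 ≤ M`

Instantiates the general curve data of `Monodromy/Field` at `GT M` from `FieldC` and `FieldDegree`,
and shows that `FYK M L` is a function field.
-/

noncomputable section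

namespace Fermat.Agent.WeightOneGalois.Curve

open CongruenceSubgroup AlgebraicCurve ModularCurve IntermediateField
open scoped MatrixGroups

variable {M : ℕ} [NeZero M]

omit [NeZero M] in
theorem two_le_abs_tr_GT (hM : 4 ≤ M) {γ : SL(2, ℤ)} (hγ : γ ∈ GT M) : 2 ≤ |Grp.tr γ| := by
  obtain ⟨h0, hd⟩ := hγ
  have hdet := upperLeft_mul_lowerRight h0
  obtain ⟨s, hs, hts⟩ : ∃ s : ℤ, (s = 2 ∨ s = -2) ∧ ((Grp.tr γ - s : ℤ) : ZMod M) = 0 := by
    rw [Grp.tr_eq]
    rcases hd with h | h
    · refine ⟨2, Or.inl rfl, ?_⟩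
      rw [h, mul_one] at hdet
      push_cast
      rw [h, hdet]
      ring
    · refine ⟨-2, Or.inr rfl, ?_⟩
      rw [h, mul_neg, mul_one, neg_eq_iff_eq_neg] at hdet
      push_cast
      rw [h, hdet]
      ring
  rw [ZMod.intCast_zmod_eq_zero_iff_dvd] at hts
  by_contra hlt
  rw [not_le, abs_lt] at hlt
  have hne : Grp.tr γ - s ≠ 0 := by rcases hs with rfl | rfl <;> omega
  have hle := Int.le_of_dvd (abs_pos.mpr hne) ((dvd_abs _ _).mpr hts)
  have : |Grp.tr γ - s| ≤ 3 := by rw [abs_le]; rcases hs with rfl | rfl <;> omega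
  omega

theorem jqModC_mem_FYK (hM : 4 ≤ M) (L : Type*) [Field L] [Algebra ℚ L] :
    jqModC L ∈ FYK M L := by
  rw [FYK, laurentBaseChange_FY (by omega)]
  exact jqModC_mem_FYres L

/-- `j` in the field of level `M`. -/
def jY (hM : 4 ≤ M) (L : Type*) [Field L] [Algebra ℚ L] : FYK M L :=
  ⟨jqModC L, jqModC_mem_FYK hM L⟩

theorem finrank_FYK (hD : FieldDegree) (hM : 4 ≤ M) (L : Type) [Field L] [IsAlgClosed L]
    [Algebra ℚ L] : Module.finrank L⟮jY hM L⟯ (FYK M L) = (GT M).index := by
  have hML : (M : L) ≠ 0 := by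
    have : CharZero L := charZero_of_injective_algebraMap (algebraMap ℚ L).injective
    exact_mod_cast NeZero.ne M
  have h : L⟮jY hM L⟯ = L⟮jqModC L⟯.comap (FYK M L).val := by
    refine SetLike.ext fun y => ?_
    rw [← IntermediateField.mem_lift, IntermediateField.lift_adjoin_simple]
    rfl
  rw [h, IntermediateField.finrank_comap, IntermediateField.fieldRange_val]
  show IntermediateField.relfinrank (L⟮jqModC L⟯) (FYK M L) = (GT M).index
  rw [show FYK M L = FYres M L from laurentBaseChange_FY (by omega) L]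
  exact hD M hM L hML

theorem finiteDimensional_FYK (hD : FieldDegree) (hM : 4 ≤ M) (L : Type) [Field L] [IsAlgClosed L]
    [Algebra ℚ L] : FiniteDimensional L⟮jY hM L⟯ (FYK M L) :=
  Module.finite_of_finrank_pos (by
    rw [finrank_FYK hD hM L]
    exact Nat.pos_of_ne_zero Subgroup.FiniteIndex.index_ne_zero)

theorem transcendental_jY (hM : 4 ≤ M) (L : Type*) [Field L] [Algebra ℚ L] :
    Transcendental L (jY hM L) := fun h =>
  (MF.transcendental_jqModC (K := L)) (h.algHom (FYK M L).val)

theorem isFunctionField_FYK (hD : FieldDegree) (hM : 4 ≤ M) (L : Type) [Field L] [IsAlgClosed L]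
    [Algebra ℚ L] : FF.IsFunctionField L (FYK M L) :=
  have := finiteDimensional_FYK hD hM L
  FF.isFunctionField_of_finite (transcendental_jY hM L)

/-- The curve of `GT M` over `ℂ`. -/
theorem curveData_GT (hC : FieldC) (hD : FieldDegree) (hM : 4 ≤ M) :
    CurveData (GT M) (M ^ 2) (FYK M ℂ) where
  gamma_le := Gamma_sq_le_GT M
  T_mem := T_mem_GT M
  neg_one_mem := neg_one_mem_GT M
  two_le_tr _ hγ := two_le_abs_tr_GT hM hγ
  exists_ratio x := (hC M hM x).mp
  mem_of_ratio x := (hC M hM x).mpr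
  jq_mem := jqModC_mem_FYK hM ℂ
  degree := finrank_FYK hD hM ℂ

end Fermat.Agent.WeightOneGalois.Curve
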