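import Fermat.Agent.Mono.BaseChange
import Fermat.Agent.WeightOneGalois.Monodromy.GT

/-!
# From `ℚ̄` to `ℂ` on the curve of `GT M`

Base change of places and divisor classes is injective and reaches all torsion, so the torsion
over `ℚ̄` can be computed over `ℂ` by monodromy.
-/

noncomputable section

namespace Fermat.Agent.WeightOneGalois.Curve

open AlgebraicCurve ModularCurve
open Fermat.Agent.Mono (baseChangeHom isConstExt_baseChangeHom placeMap placeMap_injective divMap
  degZeroMap picMap hasTrivialResidue mem_range_of_ord_eq_zero)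

local notation "Qbar" => AlgebraicClosure ℚ

variable (M : ℕ) [NeZero M]

/-- The field of level `M` over `ℚ̄`, in the field over `ℂ`. -/
def toFYC : FYK M Qbar →+* FYK M ℂ := baseChangeHom (FY M) complexEmbedding

theorem coe_toFYC (x : FYK M Qbar) : (toFYC M x : LaurentSeries ℂ) =
    coeffMap (complexEmbedding : Qbar →+* ℂ) (x : LaurentSeries Qbar) := rfl

variable [FF.IsFunctionField Qbar (FYK M Qbar)] [FF.IsFunctionField ℂ (FYK M ℂ)]

/-- The place over `ℂ` above a place over `ℚ̄`. -/
def placeYC (v : Place Qbar (FYK M Qbar)) : Place ℂ (FYK M ℂ) :=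
  placeMap (isConstExt_baseChangeHom (FY M) complexEmbedding) hasTrivialResidue v

omit [FF.IsFunctionField ℂ ↥(FYK M ℂ)] in
theorem ord_placeYC (v : Place Qbar (FYK M Qbar)) (x : FYK M Qbar) :
    (placeYC M v).ord (toFYC M x) = v.ord x :=
  Mono.ord_placeMap (isConstExt_baseChangeHom (FY M) complexEmbedding) hasTrivialResidue v x

/-- Base change of divisors of degree zero. -/
def degZeroYC :
    Divisor.degZero (K := Qbar) (F := FYK M Qbar) →+ Divisor.degZero (K := ℂ) (F := FYK M ℂ) :=
  degZeroMap (isConstExt_baseChangeHom (FY M) complexEmbedding) hasTrivialResidue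
    FF.place_deg_eq_one FF.place_deg_eq_one

theorem degZeroYC_principal {D : Divisor.degZero (K := Qbar) (F := FYK M Qbar)} {m : ℤ}
    {x : FYK M Qbar} (hD : ∀ v, m * (D : Divisor Qbar (FYK M Qbar)) v = v.ord x)
    (w : Place ℂ (FYK M ℂ)) :
    m * (degZeroYC M D : Divisor ℂ (FYK M ℂ)) w = w.ord (toFYC M x) := by
  have h := Mono.divMap_principal (isConstExt_baseChangeHom (FY M) complexEmbedding)
    hasTrivialResidue (D := m • (D : Divisor Qbar (FYK M Qbar))) (f := x)
    (fun v => by rw [Finsupp.smul_apply, smul_eq_mul, hD]) w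
  rw [map_zsmul, Finsupp.smul_apply, smul_eq_mul] at h
  exact h

/-- The points over `ℚ̄` of the Jacobian, in the points over `ℂ`. -/
def baseChangeY : JY M →+ Pic0 ℂ (FYK M ℂ) :=
  picMap (isConstExt_baseChangeHom (FY M) complexEmbedding) hasTrivialResidue
    FF.place_deg_eq_one FF.place_deg_eq_one

theorem baseChangeY_injective : Function.Injective (baseChangeY M) :=
  Mono.picMap_injective hasTrivialResidue FF.place_deg_eq_one FF.place_deg_eq_one
    fun _ _ h => mem_range_of_ord_eq_zero h

variable {M}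

theorem baseChangeY_torsion_surjective (hM : 4 ≤ M) {m : ℕ}
    [Finite (Pic0.torsion ℂ (FYK M ℂ) m)] (z : Pic0 ℂ (FYK M ℂ))
    (hz : z ∈ Pic0.torsion ℂ (FYK M ℂ) m) :
    ∃ x ∈ Pic0.torsion Qbar (FYK M Qbar) m, baseChangeY M x = z := by
  have hu : jY hM Qbar ∉ Set.range (algebraMap Qbar (FYK M Qbar)) := by
    rintro ⟨c, hc⟩
    exact transcendental_jY hM Qbar (hc ▸ isAlgebraic_algebraMap c)
  obtain ⟨x, rfl⟩ : z ∈ Set.range (baseChangeY M) :=
    Mono.mem_range_picMap_of_finite hasTrivialResidue FF.place_deg_eq_one FF.place_deg_eq_one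
      (fun _ _ h => mem_range_of_ord_eq_zero h) hasTrivialResidue hu z
      ((Set.toFinite (Pic0.torsion ℂ (FYK M ℂ) m : Set (Pic0 ℂ (FYK M ℂ)))).subset (by
        rintro _ ⟨σ, -, rfl⟩
        exact SemilinearAut.smul_mem_torsion _ hz))
  refine ⟨x, Pic0.mem_torsion.mpr (baseChangeY_injective M ?_), rfl⟩
  rw [map_zsmul, Pic0.mem_torsion.mp hz, map_zero]

end Fermat.Agent.WeightOneGalois.Curve
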