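import Fermat.Agent.Mono.FiniteLevel
import Fermat.Agent.WeightOneGalois.Monodromy.GT

/-!
# Every point of the Jacobian of `GT M` over `ℚ̄` has finite level

Places, divisors and classes are fixed by the automorphisms fixing some number field, so Galois
acts on the torsion through finite quotients, as `TorsionInputs` requires.
-/

noncomputable section

namespace Fermat.Agent.WeightOneGalois.Curve

open AlgebraicCurve ModularCurve Topology
open Fermat.Agent.Mono (coeffMap_coeffEmb)
open scoped Pointwise

local notation "Qbar" => AlgebraicClosure ℚ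

variable {M : ℕ} [NeZero M] [FF.IsFunctionField Qbar (FYK M Qbar)]

/-- Every point over `ℚ̄` of the Jacobian of `GT M` is defined over a number field. -/
theorem exists_level_JY (hM : 4 ≤ M) (x : JY M) :
    ∃ L : IntermediateField ℚ Qbar, FiniteDimensional ℚ L ∧
      ∀ σ : Qbar ≃ₐ[ℚ] Qbar, (∀ a ∈ L, σ a = a) → σ • x = x :=
  Mono.exists_level_pic0 (F₀ := FY M) (jY hM Qbar)
    (fun σ => Subtype.ext (show coeffMap (σ : Qbar →+* Qbar) (jqModC Qbar) = jqModC Qbar by
      rw [← Mono.coeffEmb_jq Qbar, coeffMap_coeffEmb]))
    (fun ⟨a, ha⟩ => transcendental_jY hM Qbar (ha ▸ isAlgebraic_algebraMap a)) x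

end Fermat.Agent.WeightOneGalois.Curve
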