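import Fermat.Agent.Mono.Lattice
import Fermat.Agent.Mono.Monodromy
import Fermat.Agent.WeightOneGalois.Hecke.Inputs
import Fermat.Agent.WeightOneGalois.Monodromy.BaseChange
import Fermat.Agent.WeightOneGalois.Monodromy.FiniteLevel

/-!
# The integral model of the torsion of the Jacobian of `GT M`

`monoInputs_of : FieldC → FieldDegree → MonoInputs`.
-/

noncomputable section

namespace Fermat.Agent.WeightOneGalois.Curve

open AlgebraicCurve ModularCurve CongruenceSubgroup
open UpperHalfPlane hiding I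
open Fermat.Agent.Mono (Pic0_mk_eq_zero_iff redCl projOfEquiv torsionMap torsionMap_bijective
  mem_range_projOfEquiv projOfEquiv_eq_zero_iff)
open scoped MatrixGroups ModularForm Manifold

local notation "Qbar" => AlgebraicClosure ℚ

section Torsion

variable {M : ℕ} [NeZero M] [FF.IsFunctionField Qbar (FYK M Qbar)]
  [FF.IsFunctionField ℂ (FYK M ℂ)] {m : ℕ} [NeZero m]

variable (hF : CurveData (GT M) (M ^ 2) (FYK M ℂ)) (hM : 4 ≤ M)
include hF hM

theorem torsionYC_bijective : Function.Bijective (torsionMap m (baseChangeY M)) :=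
  torsionMap_bijective _ (baseChangeY_injective M) fun z hz =>
    have := Mono.finite_torsionC (m := m) hF.toCurveField hF.placeData
    baseChangeY_torsion_surjective hM z hz

variable (m) in
/-- The `m`-torsion over `ℚ̄` is `Hom_cl(GT M, ℤ/m)`. -/
def torsionEquivY : Pic0.torsion Qbar (FYK M Qbar) m ≃+ Grp.clHoms ℤ (GT M) (ZMod m) :=
  (AddEquiv.ofBijective (torsionMap m (baseChangeY M)) (torsionYC_bijective hF hM)).trans
    (Mono.torsionEquivC hF.toCurveField hF.placeData m)

/-- Monodromy of a torsion class over `ℚ̄` is computed on any representing divisor. -/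
theorem torsionEquivY_eq (D : Divisor.degZero (K := Qbar) (F := FYK M Qbar))
    (hD : Pic0.mk D ∈ Pic0.torsion Qbar (FYK M Qbar) m) {φ : Additive (GT M) →+ ZMod m}
    (h : IsMonoBar M m (D : Divisor Qbar (FYK M Qbar)) φ) :
    (torsionEquivY m hF hM ⟨Pic0.mk D, hD⟩ : Additive (GT M) →+ ZMod m) = φ := by
  obtain ⟨x, hx, hord, k, A, B, r, hA, hB, hB0, he, hd, hp, hc⟩ := h
  exact Mono.monoFun_eq hF.toCurveField hF.placeData _ (D := degZeroYC M D) rfl
    ⟨k, A, B, r, toFYC M x, ⟨hA, hB, hB0, he⟩, (map_ne_zero (toFYC M)).mpr hx,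
      degZeroYC_principal M hord, hd, hp, hc⟩

theorem exists_isMonoBar (z : Pic0.torsion Qbar (FYK M Qbar) m) :
    ∃ D : Divisor.degZero (K := Qbar) (F := FYK M Qbar),
      Pic0.mk D = (z : JY M) ∧
        IsMonoBar M m (D : Divisor Qbar (FYK M Qbar))
          (torsionEquivY m hF hM z : Additive (GT M) →+ ZMod m) := by
  obtain ⟨D, hD⟩ := Pic0.mk_surjective (z : JY M)
  have htor : Pic0.mk D ∈ Pic0.torsion Qbar (FYK M Qbar) m := hD ▸ z.2
  obtain ⟨x, hx, hord⟩ : ∃ x : FYK M Qbar, x ≠ 0 ∧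
      ∀ v, (m : ℤ) * (D : Divisor Qbar (FYK M Qbar)) v = v.ord x := by
    have h0 := Pic0.mem_torsion.mp htor
    rw [show (m : ℤ) • Pic0.mk D = Pic0.mk ((m : ℤ) • D) from rfl, Pic0_mk_eq_zero_iff] at h0
    simpa [Divisor.IsPrincipal] using h0
  obtain ⟨φ, k, A, B, r, hr, hd, hp, hc⟩ := Mono.exists_rootChar hF.toRatioField hF.placeData
    (m := m) ((map_ne_zero (toFYC M)).mpr hx) (degZeroYC_principal M hord)
  have hbar : IsMonoBar M m (D : Divisor Qbar (FYK M Qbar)) φ :=
    ⟨x, hx, hord, k, A, B, r, hr.num, hr.den, hr.den_ne, hr.eq, hd, hp, hc⟩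
  refine ⟨D, hD, ?_⟩
  rwa [show z = ⟨Pic0.mk D, htor⟩ from Subtype.ext hD.symm, torsionEquivY_eq hF hM D htor hbar]

variable (m) in
/-- `Hom_cl(GT M, ℤ) → J(ℚ̄)`, onto the `m`-torsion. -/
def projY : Lat M →+ JY M :=
  projOfEquiv (torsionEquivY m hF hM)

theorem mem_range_projY (x : JY M) : x ∈ (projY m hF hM).range ↔ m • x = 0 :=
  mem_range_projOfEquiv (torsionEquivY m hF hM) (neg_one_mem_GT M) x

theorem projY_eq_zero_iff (φ : Lat M) : projY m hF hM φ = 0 ↔ ∃ ψ : Lat M, φ = m • ψ :=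
  projOfEquiv_eq_zero_iff (torsionEquivY m hF hM) φ

theorem exists_mono_projY (v : Lat M) :
    ∃ D : Divisor.degZero (K := Qbar) (F := FYK M Qbar),
      IsMonoBar M m (D : Divisor Qbar (FYK M Qbar)) (redLat M m v) ∧
        projY m hF hM v = Pic0.mk D := by
  obtain ⟨D, hD, h⟩ := exists_isMonoBar hF hM ((torsionEquivY m hF hM).symm (redCl (GT M) m v))
  rw [AddEquiv.apply_symm_apply] at h
  exact ⟨D, h, hD.symm⟩

theorem projY_eq (v : Lat M) (D : Divisor.degZero (K := Qbar) (F := FYK M Qbar))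
    (h : IsMonoBar M m (D : Divisor Qbar (FYK M Qbar)) (redLat M m v)) :
    projY m hF hM v = Pic0.mk D := by
  have htor : Pic0.mk D ∈ Pic0.torsion Qbar (FYK M Qbar) m := by
    obtain ⟨x, hx, hord, -⟩ := h
    rw [Pic0.mem_torsion, show (m : ℤ) • Pic0.mk D = Pic0.mk ((m : ℤ) • D) from rfl,
      Pic0_mk_eq_zero_iff]
    exact ⟨x, hx, fun w => by rw [← hord w]; rfl⟩
  have he : torsionEquivY m hF hM ⟨Pic0.mk D, htor⟩ = redCl (GT M) m v :=
    Subtype.ext (torsionEquivY_eq hF hM D htor h)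
  show (((torsionEquivY m hF hM).symm (redCl (GT M) m v)) : JY M) = Pic0.mk D
  rw [← he, AddEquiv.symm_apply_apply]

end Torsion

/-- The integral model of the torsion with its monodromy. -/
theorem monoInputs_of (hC : FieldC) (hD : FieldDegree) : MonoInputs := by
  intro M _ ℓ _ hM _
  have := isFunctionField_FYK hD hM Qbar
  have := isFunctionField_FYK hD hM ℂ
  have hF := curveData_GT hC hD hM
  exact ⟨{
    proj := projY ℓ hF hM
    range_eq := fun x => (mem_range_projY hF hM x).symm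
    ker_eq := projY_eq_zero_iff hF hM
    finite_level := fun v => exists_level_JY hM _
    exists_mono := exists_mono_projY hF hM
    proj_eq := projY_eq hF hM }⟩

end Fermat.Agent.WeightOneGalois.Curve
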